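import Mathlib

/-!
# Programme III (S48, Deligne–Serre), kernel DS2 (mean bound) — partial summation

* `sum_mul_le_of_partial_sums_le` : if `∑_{i < M} b i ≤ K M` for all `M` and `w` is nonnegative and
  antitone, then `∑_{i < M} b i w i ≤ K ∑_{i < M} w i`.
* `sum_rpow_neg_le` : `∑_{i < M} (i + 1)^{-s} ≤ s / (s - 1)` for `s > 1`.
* `dirichlet_sum_le` : hence `∑_{n ∈ F} b n n^{-s} ≤ 2 K / (s - 1)` for `1 < s ≤ 2` and every finite
  set `F` of positive integers, if `∑_{1 ≤ n ≤ M} b n ≤ K M` for all `M`.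
-/

set_option autoImplicit false

namespace Fermat.Agent.DS.MeanBound

open Finset

theorem sum_mul_le_of_partial_sums_le {b w : ℕ → ℝ} {K : ℝ}
    (hw0 : ∀ i, 0 ≤ w i) (hw : ∀ i, w (i + 1) ≤ w i)
    (hA : ∀ M : ℕ, ∑ i ∈ range M, b i ≤ K * M) (M : ℕ) :
    ∑ i ∈ range M, b i * w i ≤ K * ∑ i ∈ range M, w i := by
  have key : ∀ M : ℕ, ∑ i ∈ range M, b i * w i + (K * M - ∑ i ∈ range M, b i) * w M ≤
      K * ∑ i ∈ range M, w i := by
    intro M
    induction M with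
    | zero => simp
    | succ M ih =>
      rw [sum_range_succ, sum_range_succ, sum_range_succ]
      have h1 : 0 ≤ K * (M + 1 : ℕ) - (∑ i ∈ range M, b i + b M) := by
        have := hA (M + 1)
        rw [sum_range_succ] at this
        linarith
      have h2 : (K * (M + 1 : ℕ) - (∑ i ∈ range M, b i + b M)) * w (M + 1) ≤
          (K * (M + 1 : ℕ) - (∑ i ∈ range M, b i + b M)) * w M :=
        mul_le_mul_of_nonneg_left (hw M) h1
      push_cast at h2 ⊢
      nlinarith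
  have h1 : 0 ≤ (K * M - ∑ i ∈ range M, b i) * w M :=
    mul_nonneg (by linarith [hA M]) (hw0 M)
  linarith [key M]

/-- `t (x+1)^{-(t+1)} ≤ x^{-t} - (x+1)^{-t}` -/
theorem rpow_telescope {x t : ℝ} (hx : 0 < x) (ht : 0 < t) :
    t * (x + 1) ^ (-(t + 1)) ≤ x ^ (-t) - (x + 1) ^ (-t) := by
  have hx1 : 0 < x + 1 := by linarith
  set u : ℝ := (x + 1) / x with hu
  have hu0 : 0 < u := div_pos hx1 hx
  -- `u^t ≥ 1 + t / (x+1)`
  have h1 : 1 + t / (x + 1) ≤ u ^ t := by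
    rw [Real.rpow_def_of_pos hu0]
    have h2 : 1 / (x + 1) ≤ Real.log u := by
      have := Real.one_sub_inv_le_log_of_pos hu0
      have e1 : 1 - u⁻¹ = 1 / (x + 1) := by
        rw [hu, inv_div]
        field_simp
        ring
      linarith
    have h3 : t / (x + 1) ≤ Real.log u * t := by
      have := mul_le_mul_of_nonneg_right h2 ht.le
      calc t / (x + 1) = 1 / (x + 1) * t := by ring
        _ ≤ Real.log u * t := this
    have := Real.add_one_le_exp (Real.log u * t)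
    linarith
  -- `x^{-t} = (x+1)^{-t} u^t`
  have h4 : x ^ (-t) = (x + 1) ^ (-t) * u ^ t := by
    rw [hu, Real.div_rpow hx1.le hx.le, Real.rpow_neg hx.le, Real.rpow_neg hx1.le]
    have : (x + 1) ^ t ≠ 0 := (Real.rpow_pos_of_pos hx1 t).ne'
    field_simp
  have h5 : (x + 1) ^ (-(t + 1)) = (x + 1) ^ (-t) / (x + 1) := by
    rw [neg_add, Real.rpow_add hx1, Real.rpow_neg_one, div_eq_mul_inv]
  have h6 : 0 < (x + 1) ^ (-t) := Real.rpow_pos_of_pos hx1 _
  rw [h4, h5]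
  have : (x + 1) ^ (-t) * (1 + t / (x + 1)) ≤ (x + 1) ^ (-t) * u ^ t :=
    mul_le_mul_of_nonneg_left h1 h6.le
  calc t * ((x + 1) ^ (-t) / (x + 1)) = (x + 1) ^ (-t) * (1 + t / (x + 1)) - (x + 1) ^ (-t) := by
        ring
    _ ≤ (x + 1) ^ (-t) * u ^ t - (x + 1) ^ (-t) := by linarith

theorem sum_rpow_neg_le {s : ℝ} (hs : 1 < s) (M : ℕ) :
    ∑ i ∈ range M, ((i : ℝ) + 1) ^ (-s) ≤ s / (s - 1) := by
  have ht : 0 < s - 1 := by linarith
  have key : ∀ M : ℕ, ∑ i ∈ range (M + 1), ((i : ℝ) + 1) ^ (-s) ≤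
      1 + (1 - ((M : ℝ) + 1) ^ (-(s - 1))) / (s - 1) := by
    intro M
    induction M with
    | zero => simp
    | succ M ih =>
      rw [sum_range_succ]
      have hx : (0 : ℝ) < (M : ℝ) + 1 := by positivity
      have h := rpow_telescope hx ht
      have e1 : -(s - 1 + 1) = -s := by ring
      rw [e1] at h
      push_cast
      have h2 : (M + 1 + 1 : ℝ) ^ (-s) ≤
          ((M + 1 : ℝ) ^ (-(s - 1)) - (M + 1 + 1 : ℝ) ^ (-(s - 1))) / (s - 1) := by
        rw [le_div_iff₀ ht]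
        linarith
      have e2 : (1 - (M + 1 + 1 : ℝ) ^ (-(s - 1))) / (s - 1) =
          (1 - (M + 1 : ℝ) ^ (-(s - 1))) / (s - 1) +
            ((M + 1 : ℝ) ^ (-(s - 1)) - (M + 1 + 1 : ℝ) ^ (-(s - 1))) / (s - 1) := by ring
      linarith
  rcases M with _ | M
  · simp
    exact (div_pos (by linarith) ht).le
  · refine (key M).trans ?_
    have h1 : 0 ≤ ((M : ℝ) + 1) ^ (-(s - 1)) := Real.rpow_nonneg (by positivity) _
    have h2 : (1 - ((M : ℝ) + 1) ^ (-(s - 1))) / (s - 1) ≤ 1 / (s - 1) :=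
      div_le_div_of_nonneg_right (by linarith) ht.le
    have e : s / (s - 1) = 1 + 1 / (s - 1) := by
      field_simp
      ring
    linarith

/-- the Dirichlet series bound -/
theorem dirichlet_sum_le {b : ℕ → ℝ} {K : ℝ} (hb : ∀ n, 0 ≤ b n) (hK : 0 ≤ K)
    (hA : ∀ M : ℕ, ∑ i ∈ range M, b (i + 1) ≤ K * M) {s : ℝ} (hs : 1 < s) (hs2 : s ≤ 2)
    (F : Finset ℕ) (hF : ∀ n ∈ F, n ≠ 0) :
    ∑ n ∈ F, b n * (n : ℝ) ^ (-s) ≤ 2 * K / (s - 1) := by
  have ht : 0 < s - 1 := by linarith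
  set M := F.sup id with hM
  -- `F ⊆ {1, …, M}`
  have hsub : F ⊆ (range M).image (· + 1) := by
    intro n hn
    have h1 : n ≤ M := Finset.le_sup (f := id) hn
    have h0 : n ≠ 0 := hF n hn
    exact mem_image.mpr ⟨n - 1, mem_range.mpr (by omega), by omega⟩
  have h1 : ∑ n ∈ F, b n * (n : ℝ) ^ (-s) ≤
      ∑ n ∈ (range M).image (· + 1), b n * (n : ℝ) ^ (-s) :=
    sum_le_sum_of_subset_of_nonneg hsub fun n _ _ =>
      mul_nonneg (hb n) (Real.rpow_nonneg (Nat.cast_nonneg n) _)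
  rw [sum_image (fun x _ y _ h => Nat.succ_injective h)] at h1
  have h2 := sum_mul_le_of_partial_sums_le (b := fun i => b (i + 1))
    (w := fun i : ℕ => ((i : ℝ) + 1) ^ (-s)) (K := K)
    (fun i => Real.rpow_nonneg (by positivity) _)
    (fun i => by
      have : (0 : ℝ) < (i : ℝ) + 1 := by positivity
      push_cast
      exact Real.rpow_le_rpow_of_nonpos this (by linarith) (by linarith))
    hA M
  have h3 := sum_rpow_neg_le hs M
  have h4 : K * ∑ i ∈ range M, ((i : ℝ) + 1) ^ (-s) ≤ K * (s / (s - 1)) :=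
    mul_le_mul_of_nonneg_left h3 hK
  have h5 : K * (s / (s - 1)) ≤ 2 * K / (s - 1) := by
    rw [mul_div_assoc', div_le_div_iff_of_pos_right ht]
    nlinarith
  have e : ∑ i ∈ range M, b (i + 1) * ((i + 1 : ℕ) : ℝ) ^ (-s) =
      ∑ i ∈ range M, b (i + 1) * ((i : ℝ) + 1) ^ (-s) := by
    refine sum_congr rfl fun i _ => ?_
    push_cast
    rfl
  rw [e] at h1
  linarith

end Fermat.Agent.DS.MeanBound
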