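import Mathlib

/-!
# Programme III (S48, Deligne–Serre), kernel DS2 (mean bound) — the local Euler factor

For `a e : ℂ` with `‖e‖ = 1` let `c₀ = 1`, `c₁ = a`, `c_{r+2} = a c_{r+1} - e c_r` (the coefficients
`a_{p^r}` of a Hecke eigenform of weight one at a good prime).  The Rankin–Selberg local factor
`∑ |c_r|² T^r = (1 - T²) / ∏ (1 - x_i T)` implies `log ∑ |c_r|² T^r ≥ |a|² T + log (1 - T²)`.
We prove the truncated, convergence-free version

`(1 - T²) ∑_{k ≤ R} (|a|² T)^k / k! ≤ ∑_{r ≤ R} |c_r|² T^r`  (`0 ≤ T ≤ 1`)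

by pure algebra: `a^k = ∑_j b(k,j) e^j c_{k-2j}` with the ballot numbers `b(k,j)` (number of
standard tableaux of shape `(k-j, j)`), Cauchy–Schwarz, and `∑_j b(k,j)² ≤ k!`.
-/

set_option autoImplicit false

namespace Fermat.Agent.DS.MeanBound

open Finset

/-- the sequence `c₀ = 1`, `c₁ = a`, `c_{r+2} = a c_{r+1} - e c_r` -/
def cheb (a e : ℂ) : ℕ → ℂ
  | 0 => 1
  | 1 => a
  | (r + 2) => a * cheb a e (r + 1) - e * cheb a e r

@[simp] theorem cheb_zero (a e : ℂ) : cheb a e 0 = 1 := by simp [cheb]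
@[simp] theorem cheb_one (a e : ℂ) : cheb a e 1 = a := by simp [cheb]
theorem cheb_add_two (a e : ℂ) (r : ℕ) :
    cheb a e (r + 2) = a * cheb a e (r + 1) - e * cheb a e r := by simp [cheb]

/-- `a c_r = c_{r+1} + e c_{r-1}` -/
theorem mul_cheb (a e : ℂ) (r : ℕ) :
    a * cheb a e r = cheb a e (r + 1) + (if r = 0 then 0 else e * cheb a e (r - 1)) := by
  rcases r with _ | r
  · simp
  · simp only [Nat.succ_ne_zero, if_false, Nat.add_sub_cancel]
    rw [cheb_add_two]
    ring

/-- the ballot numbers: `ballot k j` is the number of standard Young tableaux of shape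
`(k - j, j)` -/
def ballot : ℕ → ℕ → ℕ
  | 0, j => if j = 0 then 1 else 0
  | (k + 1), j => if 2 * j ≤ k + 1 then ballot k j + (if j = 0 then 0 else ballot k (j - 1)) else 0

theorem ballot_eq_zero {k j : ℕ} (h : k < 2 * j) : ballot k j = 0 := by
  rcases k with _ | k
  · have : j ≠ 0 := by omega
    simp [ballot, this]
  · have : ¬ 2 * j ≤ k + 1 := by omega
    simp [ballot, this]

theorem ballot_succ (k j : ℕ) :
    ballot (k + 1) j = ballot k j + (if j = 0 ∨ k + 1 < 2 * j then 0 else ballot k (j - 1)) := by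
  by_cases h : 2 * j ≤ k + 1
  · have h' : ¬ k + 1 < 2 * j := by omega
    by_cases hj : j = 0
    · simp [ballot, hj]
    · simp [ballot, h, hj, h']
  · have h' : k + 1 < 2 * j := by omega
    have hj : j ≠ 0 := by omega
    have h0 : ballot k j = 0 := ballot_eq_zero (by omega)
    simp [ballot, h, h', h0]

/-- `a^k = ∑_j b(k,j) e^j c_{k-2j}` -/
theorem pow_eq_sum_ballot (a e : ℂ) (k : ℕ) :
    a ^ k = ∑ j ∈ range (k + 1), (ballot k j : ℂ) * e ^ j * cheb a e (k - 2 * j) := by
  induction k with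
  | zero => simp [ballot]
  | succ k ih =>
    rw [pow_succ', ih, mul_sum]
    -- expand `a * c`
    have h1 : ∀ j ∈ range (k + 1),
        a * ((ballot k j : ℂ) * e ^ j * cheb a e (k - 2 * j)) =
          (ballot k j : ℂ) * e ^ j * cheb a e (k + 1 - 2 * j) +
          (if k + 1 < 2 * (j + 1) then 0 else
            (ballot k j : ℂ) * e ^ (j + 1) * cheb a e (k + 1 - 2 * (j + 1))) := by
      intro j _
      by_cases hj : 2 * j ≤ k
      · have e1 : k - 2 * j + 1 = k + 1 - 2 * j := by omega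
        rw [mul_left_comm, mul_cheb, e1]
        by_cases h0 : k - 2 * j = 0
        · have : k + 1 < 2 * (j + 1) := by omega
          simp [h0, this]
        · have : ¬ k + 1 < 2 * (j + 1) := by omega
          have e2 : k - 2 * j - 1 = k + 1 - 2 * (j + 1) := by omega
          simp only [h0, this, if_false, e2]
          ring
      · have h0 : ballot k j = 0 := ballot_eq_zero (by omega)
        simp [h0]
    rw [sum_congr rfl h1, sum_add_distrib]
    -- the target
    have h2 : ∀ j ∈ range (k + 1 + 1),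
        (ballot (k + 1) j : ℂ) * e ^ j * cheb a e (k + 1 - 2 * j) =
          (ballot k j : ℂ) * e ^ j * cheb a e (k + 1 - 2 * j) +
          (if j = 0 ∨ k + 1 < 2 * j then 0 else
            (ballot k (j - 1) : ℂ) * e ^ j * cheb a e (k + 1 - 2 * j)) := by
      intro j _
      rw [ballot_succ]
      split_ifs <;> push_cast <;> ring
    rw [sum_congr rfl h2, sum_add_distrib]
    congr 1
    · rw [sum_range_succ _ (k + 1), ballot_eq_zero (show k < 2 * (k + 1) by omega)]
      simp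
    · rw [sum_range_succ' _ (k + 1)]
      simp only [true_or, if_true, add_zero, Nat.succ_ne_zero, false_or, Nat.add_sub_cancel]

/-- `S_k = ∑_j b(k,j)²` (a Catalan number) -/
def ballotSq (k : ℕ) : ℕ := ∑ j ∈ range (k + 1), ballot k j ^ 2

theorem ballotSq_succ_le (k : ℕ) : ballotSq (k + 1) ≤ 4 * ballotSq k := by
  unfold ballotSq
  have h1 : ∀ j ∈ range (k + 1 + 1), ballot (k + 1) j ^ 2 ≤
      2 * ballot k j ^ 2 + 2 * (if j = 0 then 0 else ballot k (j - 1) ^ 2) := by
    intro j _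
    rw [ballot_succ]
    by_cases hj : j = 0
    · simp only [hj, true_or, if_true, add_zero]
      nlinarith [Nat.zero_le (ballot k 0 ^ 2)]
    · simp only [hj, false_or, if_false]
      split_ifs
      · nlinarith [Nat.zero_le (ballot k j ^ 2), Nat.zero_le (ballot k (j - 1) ^ 2)]
      · nlinarith [sq_nonneg ((ballot k j : ℤ) - ballot k (j - 1)),
          Nat.zero_le (ballot k j ^ 2), Nat.zero_le (ballot k (j - 1) ^ 2),
          show (ballot k j + ballot k (j - 1)) ^ 2 ≤ 2 * ballot k j ^ 2 + 2 * ballot k (j - 1) ^ 2 from by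
            have := sq_nonneg ((ballot k j : ℤ) - ballot k (j - 1))
            zify
            nlinarith]
  calc ∑ j ∈ range (k + 1 + 1), ballot (k + 1) j ^ 2
      ≤ ∑ j ∈ range (k + 1 + 1), (2 * ballot k j ^ 2 +
          2 * (if j = 0 then 0 else ballot k (j - 1) ^ 2)) := sum_le_sum h1
    _ = 2 * ∑ j ∈ range (k + 1 + 1), ballot k j ^ 2 +
          2 * ∑ j ∈ range (k + 1 + 1), (if j = 0 then 0 else ballot k (j - 1) ^ 2) := by
        rw [sum_add_distrib, mul_sum, mul_sum]
    _ = 2 * ∑ j ∈ range (k + 1), ballot k j ^ 2 + 2 * ∑ j ∈ range (k + 1), ballot k j ^ 2 := by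
        congr 2
        · rw [sum_range_succ _ (k + 1), ballot_eq_zero (show k < 2 * (k + 1) by omega)]
          simp
        · rw [sum_range_succ' _ (k + 1)]
          simp
    _ = 4 * ∑ j ∈ range (k + 1), ballot k j ^ 2 := by ring

theorem ballotSq_le_factorial (k : ℕ) : ballotSq k ≤ k.factorial := by
  induction k with
  | zero => decide
  | succ k ih =>
    by_cases hk : k < 3
    · interval_cases k <;> decide
    · calc ballotSq (k + 1) ≤ 4 * ballotSq k := ballotSq_succ_le k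
        _ ≤ (k + 1) * k.factorial := Nat.mul_le_mul (by omega) ih
        _ = (k + 1).factorial := (Nat.factorial_succ k).symm

/-- `h_k = ∑_{2j ≤ k} |c_{k-2j}|²`, the coefficients of `(∑ |c_r|² T^r) / (1 - T²)` -/
noncomputable def hsum (a e : ℂ) (k : ℕ) : ℝ :=
  ∑ j ∈ range (k + 1), if 2 * j ≤ k then ‖cheb a e (k - 2 * j)‖ ^ 2 else 0

theorem hsum_nonneg (a e : ℂ) (k : ℕ) : 0 ≤ hsum a e k :=
  sum_nonneg fun j _ => by split_ifs <;> positivity

theorem hsum_zero (a e : ℂ) : hsum a e 0 = 1 := by simp [hsum]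

theorem hsum_one (a e : ℂ) : hsum a e 1 = ‖a‖ ^ 2 := by
  simp [hsum, sum_range_succ]

theorem hsum_add_two (a e : ℂ) (k : ℕ) :
    hsum a e (k + 2) = ‖cheb a e (k + 2)‖ ^ 2 + hsum a e k := by
  unfold hsum
  rw [sum_range_succ' _ (k + 2)]
  simp only [Nat.zero_le, if_true, mul_zero, Nat.sub_zero]
  rw [add_comm]
  congr 1
  rw [sum_range_succ _ (k + 1)]
  have h1 : ¬ 2 * (k + 1 + 1) ≤ k + 2 := by omega
  simp only [h1, if_false, add_zero]
  refine sum_congr rfl fun j _ => ?_
  have e1 : k + 2 - 2 * (j + 1) = k - 2 * j := by omega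
  rw [e1]
  by_cases h : 2 * j ≤ k
  · have h' : 2 * (j + 1) ≤ k + 2 := by omega
    simp [h, h']
  · have h' : ¬ 2 * (j + 1) ≤ k + 2 := by omega
    simp [h, h']

/-- the key inequality `|a|^{2k} ≤ k! h_k` -/
theorem norm_pow_le_factorial_mul_hsum (a e : ℂ) (he : ‖e‖ = 1) (k : ℕ) :
    ‖a‖ ^ (2 * k) ≤ (k.factorial : ℝ) * hsum a e k := by
  have h1 : ‖a‖ ^ k ≤ ∑ j ∈ range (k + 1), (ballot k j : ℝ) *
      (if 2 * j ≤ k then ‖cheb a e (k - 2 * j)‖ else 0) := by
    rw [← norm_pow, pow_eq_sum_ballot a e k]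
    refine (norm_sum_le _ _).trans (le_of_eq (sum_congr rfl fun j _ => ?_))
    by_cases hj : 2 * j ≤ k
    · simp [hj, he]
    · have : ballot k j = 0 := ballot_eq_zero (by omega)
      simp [this]
  have h2 := Finset.sum_mul_sq_le_sq_mul_sq (range (k + 1)) (fun j => (ballot k j : ℝ))
    (fun j => if 2 * j ≤ k then ‖cheb a e (k - 2 * j)‖ else 0)
  have h3 : (∑ j ∈ range (k + 1), (if 2 * j ≤ k then ‖cheb a e (k - 2 * j)‖ else 0) ^ 2) =
      hsum a e k := by
    unfold hsum
    refine sum_congr rfl fun j _ => ?_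
    split_ifs <;> simp
  have h4 : (∑ j ∈ range (k + 1), (ballot k j : ℝ) ^ 2) ≤ (k.factorial : ℝ) := by
    have := ballotSq_le_factorial k
    unfold ballotSq at this
    exact_mod_cast this
  have h5 : 0 ≤ ‖a‖ ^ k := by positivity
  calc ‖a‖ ^ (2 * k) = (‖a‖ ^ k) ^ 2 := by rw [← pow_mul, mul_comm]
    _ ≤ (∑ j ∈ range (k + 1), (ballot k j : ℝ) *
          (if 2 * j ≤ k then ‖cheb a e (k - 2 * j)‖ else 0)) ^ 2 := by
        exact pow_le_pow_left₀ h5 h1 2
    _ ≤ (∑ j ∈ range (k + 1), (ballot k j : ℝ) ^ 2) * hsum a e k := by rw [← h3]; exact h2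
    _ ≤ (k.factorial : ℝ) * hsum a e k :=
        mul_le_mul_of_nonneg_right h4 (hsum_nonneg a e k)

/-- the shifted sequence `H_0 = 0`, `H_{k+1} = h_k` -/
noncomputable def hshift (a e : ℂ) : ℕ → ℝ
  | 0 => 0
  | (k + 1) => hsum a e k

theorem hshift_nonneg (a e : ℂ) (k : ℕ) : 0 ≤ hshift a e k := by
  rcases k with _ | k
  · simp [hshift]
  · exact hsum_nonneg a e k

theorem hshift_add_two (a e : ℂ) (k : ℕ) :
    hshift a e (k + 2) = ‖cheb a e (k + 1)‖ ^ 2 + hshift a e k := by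
  rcases k with _ | k
  · simp [hshift, hsum_one]
  · simp only [hshift]
    exact hsum_add_two a e k

/-- the truncated identity `Φ_R = (1 - T²) G_R + T^{R+1} (H_R + H_{R+1} T)` -/
theorem sum_normSq_cheb_eq (a e : ℂ) (T : ℝ) (R : ℕ) :
    ∑ r ∈ range (R + 1), ‖cheb a e r‖ ^ 2 * T ^ r =
      (1 - T ^ 2) * ∑ k ∈ range (R + 1), hsum a e k * T ^ k +
        T ^ (R + 1) * (hshift a e R + hshift a e (R + 1) * T) := by
  induction R with
  | zero => simp [hshift, hsum_zero]; ring
  | succ R ih =>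
    rw [sum_range_succ _ (R + 1), ih, sum_range_succ (fun k => hsum a e k * T ^ k) (R + 1)]
    have h1 : hshift a e (R + 1 + 1) = ‖cheb a e (R + 1)‖ ^ 2 + hshift a e R :=
      hshift_add_two a e R
    have h2 : hsum a e (R + 1) = hshift a e (R + 1 + 1) := rfl
    have h3 : hshift a e (R + 1) = hshift a e (R + 1) := rfl
    rw [h2, h1]
    ring

/-- **the local Euler factor inequality** (truncated, convergence-free):
`(1 - T²) ∑_{k ≤ R} (|a|² T)^k / k! ≤ ∑_{r ≤ R} |c_r|² T^r` for `0 ≤ T ≤ 1`. -/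
theorem one_sub_sq_mul_expTrunc_le (a e : ℂ) (he : ‖e‖ = 1) {T : ℝ} (hT0 : 0 ≤ T) (hT1 : T ≤ 1)
    (R : ℕ) :
    (1 - T ^ 2) * ∑ k ∈ range (R + 1), (‖a‖ ^ 2 * T) ^ k / (k.factorial : ℝ) ≤
      ∑ r ∈ range (R + 1), ‖cheb a e r‖ ^ 2 * T ^ r := by
  rw [sum_normSq_cheb_eq]
  have h1 : 0 ≤ 1 - T ^ 2 := by nlinarith
  have h2 : 0 ≤ T ^ (R + 1) * (hshift a e R + hshift a e (R + 1) * T) := by
    have := hshift_nonneg a e R
    have := hshift_nonneg a e (R + 1)
    positivity
  have h3 : ∑ k ∈ range (R + 1), (‖a‖ ^ 2 * T) ^ k / (k.factorial : ℝ) ≤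
      ∑ k ∈ range (R + 1), hsum a e k * T ^ k := by
    refine sum_le_sum fun k _ => ?_
    have hk : (0 : ℝ) < k.factorial := by exact_mod_cast k.factorial_pos
    rw [div_le_iff₀ hk, mul_pow, ← pow_mul]
    have := norm_pow_le_factorial_mul_hsum a e he k
    have hTk : 0 ≤ T ^ k := by positivity
    nlinarith
  nlinarith [mul_le_mul_of_nonneg_left h3 h1]

end Fermat.Agent.DS.MeanBound
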