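import Mathlib
import Fermat.Agent.DS.MeanBound.Cheb

/-!
# Programme III (S48, Deligne–Serre), kernel DS2 (mean bound) — the Euler product step

Abstract form: `a : ℕ → ℂ` with `a 1 = 1` and the Hecke relations
`a (p n) + e p · [p ∣ n] a (n / p) = a p · a n` at the good primes `p`, `‖e p‖ = 1`.  If all
finite sums `∑_{n ∈ F} |a n|² n^{-s}` are bounded by `B`, then for every finite set `P` of good
primes `∑_{p ∈ P} |a p|² p^{-s} ≤ log B + 4`.
-/

set_option autoImplicit false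

namespace Fermat.Agent.DS.MeanBound

open Finset

/-- the Hecke relations at the good primes -/
def HeckeRel (a e : ℕ → ℂ) (good : ℕ → Prop) : Prop :=
  ∀ p : ℕ, p.Prime → good p → ∀ n : ℕ,
    a (p * n) + e p * (if p ∣ n then a (n / p) else 0) = a p * a n

variable {a e : ℕ → ℂ} {good : ℕ → Prop}

/-- `a (p^r m) = c_r(p) a m` for `p ∤ m` -/
theorem coeff_prime_pow_mul (hH : HeckeRel a e good) {p : ℕ} (hp : p.Prime) (hg : good p) {m : ℕ}
    (hm : ¬ p ∣ m) (r : ℕ) : a (p ^ r * m) = cheb (a p) (e p) r * a m := by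
  induction r using Nat.twoStepInduction with
  | zero => simp
  | one =>
    have := hH p hp hg m
    simpa [hm] using this
  | more r ih0 ih1 =>
    have h := hH p hp hg (p ^ (r + 1) * m)
    have hdvd : p ∣ p ^ (r + 1) * m := Dvd.dvd.mul_right (dvd_pow_self p (Nat.succ_ne_zero r)) m
    have hdiv : p ^ (r + 1) * m / p = p ^ r * m := by
      rw [pow_succ, mul_comm (p ^ r) p, mul_assoc]
      exact Nat.mul_div_cancel_left _ hp.pos
    rw [if_pos hdvd, hdiv, ih0, ih1] at h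
    have e1 : p ^ (r + 2) * m = p * (p ^ (r + 1) * m) := by ring
    rw [e1, cheb_add_two]
    linear_combination h

theorem pow_mul_injOn {p : ℕ} (hp : p.Prime) (F : Finset ℕ) (R : ℕ)
    (hF : ∀ n ∈ F, n ≠ 0 ∧ ¬ p ∣ n) :
    Set.InjOn (fun x : ℕ × ℕ => p ^ x.1 * x.2) (range (R + 1) ×ˢ F : Finset (ℕ × ℕ)) := by
  have : Fact p.Prime := ⟨hp⟩
  rintro ⟨r, n⟩ hx ⟨r', n'⟩ hx' h
  simp only [coe_product, Set.mem_prod, mem_coe, mem_range] at hx hx'
  simp only at h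
  obtain ⟨hn0, hnp⟩ := hF n hx.2
  obtain ⟨hn0', hnp'⟩ := hF n' hx'.2
  have hv : ∀ (r n : ℕ), n ≠ 0 → ¬ p ∣ n → padicValNat p (p ^ r * n) = r := by
    intro r n h0 hd
    rw [padicValNat.mul (pow_ne_zero _ hp.ne_zero) h0, padicValNat.prime_pow,
      padicValNat.eq_zero_of_not_dvd hd, add_zero]
  have hr : r = r' := by
    have := congrArg (padicValNat p) h
    rwa [hv r n hn0 hnp, hv r' n' hn0' hnp'] at this
  subst hr
  have hn : n = n' := Nat.eq_of_mul_eq_mul_left (pow_pos hp.pos r) h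
  rw [hn]

/-- the finite Euler sub-products are bounded by any bound for the finite sums -/
theorem prod_euler_factor_le (hH : HeckeRel a e good) (h1 : a 1 = 1) (w : ℕ → ℝ)
    (hw1 : w 1 = 1) (hwm : ∀ m n, w (m * n) = w m * w n) {B : ℝ}
    (hB : ∀ F : Finset ℕ, (∀ n ∈ F, n ≠ 0) → ∑ n ∈ F, ‖a n‖ ^ 2 * w n ≤ B)
    (P : Finset ℕ) (hP : ∀ p ∈ P, p.Prime ∧ good p) (R : ℕ) :
    ∏ p ∈ P, ∑ r ∈ range (R + 1), ‖cheb (a p) (e p) r‖ ^ 2 * w p ^ r ≤ B := by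
  have hwpow : ∀ (p r : ℕ), w (p ^ r) = w p ^ r := by
    intro p r
    induction r with
    | zero => simp [hw1]
    | succ r ih => rw [pow_succ, hwm, ih, pow_succ]
  have key : ∀ (P : Finset ℕ), (∀ p ∈ P, p.Prime ∧ good p) → ∀ F : Finset ℕ,
      (∀ n ∈ F, n ≠ 0 ∧ ∀ p ∈ P, ¬ p ∣ n) →
      (∏ p ∈ P, ∑ r ∈ range (R + 1), ‖cheb (a p) (e p) r‖ ^ 2 * w p ^ r) *
        ∑ n ∈ F, ‖a n‖ ^ 2 * w n ≤ B := by
    intro P
    induction P using Finset.induction_on with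
    | empty =>
      intro _ F hF
      simpa using hB F fun n hn => (hF n hn).1
    | insert p₀ P hp₀ ih =>
      intro hP F hF
      obtain ⟨hp₀p, hp₀g⟩ := hP p₀ (mem_insert_self _ _)
      have hP' : ∀ p ∈ P, p.Prime ∧ good p := fun p hp => hP p (mem_insert_of_mem hp)
      have hFp₀ : ∀ n ∈ F, n ≠ 0 ∧ ¬ p₀ ∣ n := fun n hn =>
        ⟨(hF n hn).1, (hF n hn).2 p₀ (mem_insert_self _ _)⟩
      rw [prod_insert hp₀, mul_assoc, mul_comm (∑ r ∈ range (R + 1), _), mul_assoc]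
      -- the new finite set
      have hinj := pow_mul_injOn hp₀p F R hFp₀
      have hsum : (∑ n ∈ F, ‖a n‖ ^ 2 * w n) *
          ∑ r ∈ range (R + 1), ‖cheb (a p₀) (e p₀) r‖ ^ 2 * w p₀ ^ r =
          ∑ k ∈ ((range (R + 1) ×ˢ F).image fun x : ℕ × ℕ => p₀ ^ x.1 * x.2),
            ‖a k‖ ^ 2 * w k := by
        rw [sum_image hinj, sum_product, mul_comm, sum_mul]
        refine sum_congr rfl fun r _ => ?_
        rw [mul_sum]
        refine sum_congr rfl fun n hn => ?_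
        rw [coeff_prime_pow_mul hH hp₀p hp₀g (hFp₀ n hn).2 r, norm_mul, hwm, hwpow]
        ring
      rw [hsum]
      refine ih hP' _ ?_
      intro k hk
      obtain ⟨⟨r, n⟩, hx, rfl⟩ := mem_image.mp hk
      simp only [mem_product, mem_range] at hx
      refine ⟨mul_ne_zero (pow_ne_zero _ hp₀p.ne_zero) (hF n hx.2).1, fun p hp hd => ?_⟩
      rcases (Nat.Prime.dvd_mul (hP' p hp).1).mp hd with h | h
      · have := (Nat.prime_dvd_prime_iff_eq (hP' p hp).1 hp₀p).mp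
          ((hP' p hp).1.dvd_of_dvd_pow h)
        exact hp₀ (this ▸ hp)
      · exact (hF n hx.2).2 p (mem_insert_of_mem hp) h
  have := key P hP {1} (by
    intro n hn
    rw [mem_singleton] at hn
    subst hn
    exact ⟨one_ne_zero, fun p hp hd => (hP p hp).1.one_lt.ne' (Nat.dvd_one.mp hd)⟩)
  simpa [h1, hw1] using this

/-- `-log (1 - y) ≤ 2 y` for `0 ≤ y ≤ 1/2` -/
theorem neg_log_one_sub_le {y : ℝ} (h0 : 0 ≤ y) (h1 : y ≤ 1 / 2) : -Real.log (1 - y) ≤ 2 * y := by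
  have hpos : 0 < 1 - y := by linarith
  have h := Real.one_sub_inv_le_log_of_pos hpos
  have h2 : (1 - y)⁻¹ ≤ 1 + 2 * y := by
    rw [inv_le_iff_one_le_mul₀ hpos]
    nlinarith
  linarith

theorem sum_one_div_sq_le_two (P : Finset ℕ) : ∑ p ∈ P, (1 : ℝ) / (p : ℝ) ^ 2 ≤ 2 := by
  have h := sum_le_hasSum P (fun i _ => by positivity) hasSum_zeta_two
  have hpi : Real.pi ^ 2 / 6 ≤ 2 := by
    have h1 := Real.pi_lt_d2
    have h2 := Real.pi_pos
    nlinarith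
  exact h.trans hpi

theorem tendsto_expTrunc (x : ℝ) :
    Filter.Tendsto (fun R : ℕ => ∑ k ∈ range (R + 1), x ^ k / (k.factorial : ℝ)) Filter.atTop
      (nhds (Real.exp x)) := by
  have h : HasSum (fun n : ℕ => x ^ n / (n.factorial : ℝ)) (Real.exp x) := by
    rw [Real.exp_eq_exp_ℝ]
    exact NormedSpace.expSeries_div_hasSum_exp x
  exact (h.tendsto_sum_nat).comp (Filter.tendsto_add_atTop_nat 1)

/-- **the Euler product step**: if all finite sums `∑_{n ∈ F} |a n|² n^{-s}` are bounded by `B`,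
then `∑_{p ∈ P} |a p|² p^{-s} ≤ log B + 4` for every finite set `P` of good primes. -/
theorem euler_mean_bound (hH : HeckeRel a e good) (h1 : a 1 = 1)
    (he : ∀ p : ℕ, p.Prime → good p → ‖e p‖ = 1) {s : ℝ} (hs : 1 < s) {B : ℝ}
    (hB : ∀ F : Finset ℕ, (∀ n ∈ F, n ≠ 0) → ∑ n ∈ F, ‖a n‖ ^ 2 * (n : ℝ) ^ (-s) ≤ B)
    (P : Finset ℕ) (hP : ∀ p ∈ P, p.Prime ∧ good p) :
    ∑ p ∈ P, ‖a p‖ ^ 2 * (p : ℝ) ^ (-s) ≤ Real.log B + 4 := by
  set w : ℕ → ℝ := fun n => (n : ℝ) ^ (-s) with hw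
  have hw0 : ∀ n, 0 ≤ w n := fun n => Real.rpow_nonneg (Nat.cast_nonneg n) _
  have hw1 : w 1 = 1 := by simp [hw]
  have hwm : ∀ m n, w (m * n) = w m * w n := fun m n => by
    simp only [hw, Nat.cast_mul]
    exact Real.mul_rpow (Nat.cast_nonneg m) (Nat.cast_nonneg n)
  -- `T_p = p^{-s} ∈ (0, 1/2]`
  have hT : ∀ p ∈ P, 0 < w p ∧ w p ≤ 1 / 2 ∧ w p ^ 2 ≤ 1 / (p : ℝ) ^ 2 := by
    intro p hp
    have hp2 : (2 : ℝ) ≤ p := by exact_mod_cast (hP p hp).1.two_le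
    have hp0 : (0 : ℝ) < p := by linarith
    have h1' : w p ≤ (p : ℝ) ^ (-1 : ℝ) :=
      Real.rpow_le_rpow_of_exponent_le (by linarith) (by linarith)
    have h2 : (p : ℝ) ^ (-1 : ℝ) = 1 / (p : ℝ) := by rw [Real.rpow_neg_one, one_div]
    have h3 : 1 / (p : ℝ) ≤ 1 / 2 := one_div_le_one_div_of_le (by norm_num) hp2
    have h4 : 0 < w p := Real.rpow_pos_of_pos hp0 _
    refine ⟨h4, by linarith, ?_⟩
    have h5 : w p ≤ 1 / (p : ℝ) := by linarith
    calc w p ^ 2 ≤ (1 / (p : ℝ)) ^ 2 := pow_le_pow_left₀ h4.le h5 2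
      _ = 1 / (p : ℝ) ^ 2 := by rw [div_pow, one_pow]
  -- the truncated products
  have hR : ∀ R : ℕ, ∏ p ∈ P, ((1 - w p ^ 2) *
      ∑ k ∈ range (R + 1), (‖a p‖ ^ 2 * w p) ^ k / (k.factorial : ℝ)) ≤ B := by
    intro R
    refine le_trans (prod_le_prod ?_ ?_) (prod_euler_factor_le hH h1 w hw1 hwm hB P hP R)
    · intro p hp
      obtain ⟨h4, h5, -⟩ := hT p hp
      have : 0 ≤ 1 - w p ^ 2 := by nlinarith
      have h6 : 0 ≤ ∑ k ∈ range (R + 1), (‖a p‖ ^ 2 * w p) ^ k / (k.factorial : ℝ) :=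
        sum_nonneg fun k _ => by positivity
      positivity
    · intro p hp
      obtain ⟨h4, h5, -⟩ := hT p hp
      exact one_sub_sq_mul_expTrunc_le (a p) (e p) (he p (hP p hp).1 (hP p hp).2) h4.le
        (by linarith) R
  -- the limit
  have hlim : ∏ p ∈ P, ((1 - w p ^ 2) * Real.exp (‖a p‖ ^ 2 * w p)) ≤ B := by
    refine le_of_tendsto' (tendsto_finsetProd P fun p _ =>
      (tendsto_expTrunc (‖a p‖ ^ 2 * w p)).const_mul (1 - w p ^ 2)) hR
  -- logarithms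
  have hpos : ∀ p ∈ P, 0 < (1 - w p ^ 2) * Real.exp (‖a p‖ ^ 2 * w p) := by
    intro p hp
    obtain ⟨h4, h5, -⟩ := hT p hp
    have : 0 < 1 - w p ^ 2 := by nlinarith
    positivity
  have hprodpos : 0 < ∏ p ∈ P, ((1 - w p ^ 2) * Real.exp (‖a p‖ ^ 2 * w p)) := prod_pos hpos
  have hlog := Real.log_le_log hprodpos hlim
  rw [Real.log_prod fun p hp => (hpos p hp).ne'] at hlog
  have hterm : ∀ p ∈ P, Real.log ((1 - w p ^ 2) * Real.exp (‖a p‖ ^ 2 * w p)) ≥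
      ‖a p‖ ^ 2 * w p - 2 * (1 / (p : ℝ) ^ 2) := by
    intro p hp
    obtain ⟨h4, h5, h6⟩ := hT p hp
    have h7 : 0 < 1 - w p ^ 2 := by nlinarith
    rw [Real.log_mul h7.ne' (Real.exp_pos _).ne', Real.log_exp]
    have h8 : w p ^ 2 ≤ 1 / 2 := by nlinarith
    have := neg_log_one_sub_le (sq_nonneg (w p)) h8
    linarith
  have hsum : ∑ p ∈ P, (‖a p‖ ^ 2 * w p - 2 * (1 / (p : ℝ) ^ 2)) ≤ Real.log B :=
    (sum_le_sum hterm).trans hlog
  rw [sum_sub_distrib, ← mul_sum] at hsum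
  have := sum_one_div_sq_le_two P
  linarith

end Fermat.Agent.DS.MeanBound
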