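import Mathlib
import Fermat.Prelude.Def_FLTPrelim_Modularity

/-!
# Programme III (S48, Deligne–Serre), kernel DS2 (mean bound) — the mean square of the coefficients

For a cusp form `f` of weight `k` on `Γ₁(N)`: `∑_{1 ≤ n ≤ M} |a_n|² ≤ K M^k` (Hecke's mean square
bound), from `|f(τ)| ≤ C (im τ)^{-k/2}` (Mathlib) and Parseval on horizontal lines.  Here only
`k = 1`.
-/

set_option autoImplicit false

namespace Fermat.Agent.DS.MeanBound

open Finset UpperHalfPlane ModularFormClass CongruenceSubgroup Complex MeasureTheory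
open scoped MatrixGroups Real

variable {N : ℕ}

/-- the restriction of `f` to the horizontal line of height `t` -/
noncomputable def horiz (f : ℍ → ℂ) (t : ℝ) (u : ℝ) : ℂ :=
  if ht : 0 < t then f ⟨(u : ℂ) + t * Complex.I, by simpa using ht⟩ else 0

theorem horiz_of_pos (f : ℍ → ℂ) {t : ℝ} (ht : 0 < t) (u : ℝ) :
    horiz f t u = f ⟨(u : ℂ) + t * Complex.I, by simpa using ht⟩ := by
  simp [horiz, ht]

theorem continuous_horiz {f : ℍ → ℂ} (hf : Continuous f) (t : ℝ) : Continuous (horiz f t) := by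
  by_cases ht : 0 < t
  · have : horiz f t = fun u : ℝ => f ⟨(u : ℂ) + t * Complex.I, by simpa using ht⟩ := by
      funext u
      exact horiz_of_pos f ht u
    rw [this]
    refine hf.comp ?_
    rw [UpperHalfPlane.isEmbedding_coe.continuous_iff]
    show Continuous fun u : ℝ => (u : ℂ) + t * Complex.I
    fun_prop
  · have : horiz f t = fun _ => 0 := by
      funext u
      simp [horiz, ht]
    rw [this]
    exact continuous_const

/-- the Fourier coefficients of the restriction to a horizontal line -/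
theorem fourierCoeffOn_horiz (f : CuspForm (Gamma1 N) 1) {t : ℝ} (ht : 0 < t) (n : ℕ) :
    fourierCoeffOn zero_lt_one (horiz f t) (n : ℤ) =
      (Real.exp (-2 * π * n * t) : ℂ) * qCoeff f n := by
  have h1 : (1 : ℝ) ∈ (Gamma1 N : Subgroup (GL (Fin 2) ℝ)).strictPeriods := by
    rw [strictPeriods_Gamma1]
    exact AddSubgroup.mem_zmultiples 1
  have h2 := ModularFormClass.qExpansion_coeff_eq_intervalIntegral f zero_lt_one h1 n ht
  rw [fourierCoeffOn_eq_integral]
  unfold qCoeff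
  rw [h2]
  simp only [sub_zero, div_one, one_div, one_smul, ofReal_one, one_mul]
  rw [← intervalIntegral.integral_const_mul]
  refine intervalIntegral.integral_congr fun u _ => ?_
  simp only [horiz_of_pos f ht, smul_eq_mul, fourier_coe_apply, Function.Periodic.qParam]
  rw [← mul_assoc]
  congr 1
  rw [← Complex.exp_nat_mul, ← Complex.exp_neg, Complex.ofReal_exp, ← Complex.exp_add]
  congr 1
  push_cast
  linear_combination (2 * (π : ℂ) * n * t) * Complex.I_sq

/-- **Bessel's inequality on a horizontal line** -/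
theorem sum_normSq_qCoeff_mul_exp_le (f : CuspForm (Gamma1 N) 1) {C : ℝ}
    (hC : ∀ τ : ℍ, ‖f τ‖ ≤ C / τ.im ^ (((1 : ℤ) : ℝ) / 2)) {t : ℝ} (ht : 0 < t) (F : Finset ℕ) :
    ∑ n ∈ F, ‖qCoeff f n‖ ^ 2 * Real.exp (-4 * π * n * t) ≤ C ^ 2 / t := by
  set g := horiz f t with hg
  have hcont : Continuous g := continuous_horiz (CuspFormClass.holo f).continuous t
  -- the pointwise bound
  have hD : ∀ u : ℝ, ‖g u‖ ^ 2 ≤ C ^ 2 / t := by
    intro u
    have h := hC ⟨(u : ℂ) + t * Complex.I, by simpa using ht⟩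
    have him : (⟨(u : ℂ) + t * Complex.I, by simpa using ht⟩ : ℍ).im = t := by
      simp [UpperHalfPlane.im]
    rw [him] at h
    rw [hg, horiz_of_pos f ht u]
    have h0 : 0 ≤ ‖f ⟨(u : ℂ) + t * Complex.I, by simpa using ht⟩‖ := norm_nonneg _
    have h1 : 0 < t ^ (((1 : ℤ) : ℝ) / 2) := Real.rpow_pos_of_pos ht _
    have h2 : (t ^ (((1 : ℤ) : ℝ) / 2)) ^ 2 = t := by
      rw [← Real.rpow_natCast, ← Real.rpow_mul ht.le]
      norm_num
    calc ‖f ⟨(u : ℂ) + t * Complex.I, by simpa using ht⟩‖ ^ 2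
        ≤ (C / t ^ (((1 : ℤ) : ℝ) / 2)) ^ 2 := pow_le_pow_left₀ h0 h 2
      _ = C ^ 2 / t := by rw [div_pow, h2]
  have hD' : ∀ u : ℝ, ‖g u‖ ≤ Real.sqrt (C ^ 2 / t) := fun u =>
    Real.le_sqrt_of_sq_le (hD u)
  have hL2 : MemLp g 2 (volume.restrict (Set.Ioc (0 : ℝ) 1)) :=
    MemLp.of_bound hcont.aestronglyMeasurable _ (Filter.Eventually.of_forall hD')
  have hsum := hasSum_sq_fourierCoeffOn zero_lt_one hL2
  -- the total
  have htot : ((1 : ℝ) - 0)⁻¹ • ∫ x in (0 : ℝ)..1, ‖g x‖ ^ 2 ≤ C ^ 2 / t := by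
    simp only [sub_zero, inv_one, one_smul]
    have h := intervalIntegral.norm_integral_le_of_norm_le_const (a := (0 : ℝ)) (b := 1)
      (f := fun x => ‖g x‖ ^ 2) (C := C ^ 2 / t) (fun x _ => by
        rw [Real.norm_of_nonneg (by positivity)]
        exact hD x)
    simp only [sub_zero, abs_one, mul_one] at h
    exact (le_abs_self _).trans (by simpa [Real.norm_eq_abs] using h)
  -- the finite sub-sum
  have hle := sum_le_hasSum (F.map Nat.castEmbedding) (fun i _ => by positivity) hsum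
  rw [sum_map] at hle
  refine le_trans (le_of_eq ?_) (hle.trans htot)
  refine sum_congr rfl fun n _ => ?_
  simp only [Nat.castEmbedding_apply]
  rw [hg, fourierCoeffOn_horiz f ht n, norm_mul, mul_pow, Complex.norm_real,
    Real.norm_of_nonneg (Real.exp_pos _).le, ← Real.exp_nat_mul, mul_comm]
  congr 2
  push_cast
  ring

/-- **Hecke's mean square bound** in weight one: `∑_{1 ≤ n ≤ M} |a_n|² ≤ K M`. -/
theorem exists_mean_square_bound [NeZero N] (f : CuspForm (Gamma1 N) 1) :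
    ∃ K : ℝ, 0 < K ∧ ∀ M : ℕ, ∑ i ∈ range M, ‖qCoeff f (i + 1)‖ ^ 2 ≤ K * M := by
  obtain ⟨C, hC⟩ := CuspFormClass.exists_bound f
  refine ⟨Real.exp (4 * π) * (C ^ 2 + 1), by positivity, fun M => ?_⟩
  rcases Nat.eq_zero_or_pos M with rfl | hM
  · simp
  have hM' : (0 : ℝ) < M := by exact_mod_cast hM
  have ht : (0 : ℝ) < 1 / M := by positivity
  have h := sum_normSq_qCoeff_mul_exp_le f hC ht ((range M).image (· + 1))
  rw [sum_image (fun x _ y _ h => Nat.succ_injective h)] at h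
  have h1 : ∀ i ∈ range M, ‖qCoeff f (i + 1)‖ ^ 2 * Real.exp (-(4 * π)) ≤
      ‖qCoeff f (i + 1)‖ ^ 2 * Real.exp (-4 * π * ((i + 1 : ℕ) : ℝ) * (1 / M)) := by
    intro i hi
    refine mul_le_mul_of_nonneg_left (Real.exp_le_exp.mpr ?_) (by positivity)
    have hi' : ((i + 1 : ℕ) : ℝ) ≤ M := by exact_mod_cast Nat.succ_le_of_lt (mem_range.mp hi)
    have h2 : ((i + 1 : ℕ) : ℝ) * (1 / M) ≤ 1 := by
      rw [mul_one_div, div_le_one hM']
      exact hi'
    have hpi := Real.pi_pos
    nlinarith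
  have h3 := (sum_le_sum h1).trans h
  rw [← sum_mul] at h3
  have h4 : C ^ 2 / (1 / (M : ℝ)) = C ^ 2 * M := by
    field_simp
  rw [h4] at h3
  have h5 : (∑ i ∈ range M, ‖qCoeff f (i + 1)‖ ^ 2) =
      Real.exp (4 * π) * ((∑ i ∈ range M, ‖qCoeff f (i + 1)‖ ^ 2) * Real.exp (-(4 * π))) := by
    rw [mul_comm (Real.exp (4 * π)), mul_assoc, ← Real.exp_add]
    simp
  rw [h5, mul_assoc]
  refine mul_le_mul_of_nonneg_left ?_ (Real.exp_pos _).le
  nlinarith

end Fermat.Agent.DS.MeanBound
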