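import Mathlib
import Fermat.Agent.DS.MeanBound.Euler
import Fermat.Agent.DS.MeanBound.Abel
import Fermat.Agent.DS.MeanBound.Parseval

/-!
# Programme III (S48, Deligne–Serre), kernel DS2: the mean bound

`rankin_mean_bound` : for a weight one cusp form `f` on `Γ₁(N)` with `a₁ = 1` whose coefficients
satisfy the Hecke relations of the frozen statement S48 for a Dirichlet character `ε`,

`∑_{p ∈ P} |a_p|² p^{-s} ≤ log (1 / (s - 1)) + C`   (`1 < s ≤ 2`, `P` any finite set of primes `∤ N`)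

with a constant `C` depending only on `f` (Deligne–Serre, (5.1); Rankin's method is replaced by
Hecke's mean square bound, and the local Rankin–Selberg factor by a truncated inequality).
The hypotheses are exactly those of S48, so the statement applies verbatim to every Galois
conjugate of `f`.
-/

set_option autoImplicit false

namespace Fermat.Agent.DS.MeanBound

open Finset UpperHalfPlane ModularFormClass CongruenceSubgroup
open scoped MatrixGroups

/-- **(DS2) the mean bound** -/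
theorem rankin_mean_bound (N : ℕ) [NeZero N] (ε : DirichletCharacter ℂ N)
    (f : CuspForm (Gamma1 N) 1) (hf₁ : qCoeff f 1 = 1)
    (hT : ∀ p : ℕ, p.Prime → ¬ p ∣ N → ∀ n : ℕ,
        qCoeff f (p * n) + ε (p : ZMod N) * (if p ∣ n then qCoeff f (n / p) else 0) =
          qCoeff f p * qCoeff f n) :
    ∃ C : ℝ, ∀ s : ℝ, 1 < s → s ≤ 2 → ∀ P : Finset ℕ, (∀ p ∈ P, p.Prime ∧ ¬ p ∣ N) →
      ∑ p ∈ P, ‖qCoeff f p‖ ^ 2 * (p : ℝ) ^ (-s) ≤ Real.log (1 / (s - 1)) + C := by
  obtain ⟨K, hK, hKM⟩ := exists_mean_square_bound f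
  refine ⟨Real.log (2 * K) + 4, fun s hs hs2 P hP => ?_⟩
  have hH : HeckeRel (fun n => qCoeff f n) (fun p => ε (p : ZMod N)) (fun p => ¬ p ∣ N) := hT
  have he : ∀ p : ℕ, p.Prime → ¬ p ∣ N → ‖ε (p : ZMod N)‖ = 1 := by
    intro p hp hpN
    have hu : IsUnit (p : ZMod N) :=
      (ZMod.isUnit_iff_coprime p N).mpr ((Nat.Prime.coprime_iff_not_dvd hp).mpr hpN)
    obtain ⟨u, hu⟩ := hu
    rw [← hu]
    exact DirichletCharacter.unit_norm_eq_one ε u
  have hB : ∀ F : Finset ℕ, (∀ n ∈ F, n ≠ 0) →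
      ∑ n ∈ F, ‖qCoeff f n‖ ^ 2 * (n : ℝ) ^ (-s) ≤ 2 * K / (s - 1) := fun F hF =>
    dirichlet_sum_le (b := fun n => ‖qCoeff f n‖ ^ 2) (fun n => by positivity) hK.le hKM hs hs2 F hF
  have h := euler_mean_bound hH hf₁ he hs hB P hP
  have ht : 0 < s - 1 := by linarith
  have e1 : Real.log (2 * K / (s - 1)) = Real.log (2 * K) + Real.log (1 / (s - 1)) := by
    rw [← Real.log_mul (by positivity) (by positivity)]
    congr 1
    ring
  rw [e1] at h
  linarith

end Fermat.Agent.DS.MeanBound
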